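import Fermat.Agent.Gal.Basic
import Fermat.Agent.Red.Genus
import Fermat.Agent.TwoComponent.ArchQbar
import Fermat.Agent.TwoComponent.ModelFrame

/-!
# Mazur's principle at `p`: levels, residue field

`N = M p`; the work is done at level `L p` with `L = lcm M 4`, whose degree over level `M p` is
prime to `p ≥ 5`.
-/

noncomputable section

open ModularCurve Fermat.Agent.Igusa

namespace Fermat.Agent.LoweringAtP.Setup

local notation "Qbar" => AlgebraicClosure ℚ

/-- `ψ (4 M) = 6 ψ M` for odd `M`. -/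
theorem psi_four {M : ℕ} (hM : M ≠ 0) (h : ¬ 2 ∣ M) : psi (M * 4) = 6 * psi M := by
  rw [show M * 4 = M * 2 * 2 by ring, psi_mul_prime (by omega) Nat.prime_two,
    if_pos (dvd_mul_left 2 M), psi_mul_prime hM Nat.prime_two, if_neg h]
  ring

/-- A level `L` above `M`, divisible by `4`, whose degree over level `M` is prime to `p ≥ 5`. -/
theorem exists_levels {p M : ℕ} (hp : p.Prime) (hp5 : 5 ≤ p) (hM0 : M ≠ 0) (hpM : ¬ p ∣ M) :
    ∃ L c : ℕ, L ≠ 0 ∧ M ∣ L ∧ 4 ∣ L ∧ ¬ p ∣ L ∧ ¬ p ∣ c ∧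
      psi (L * p) = c * psi (M * p) := by
  have hsmall : ∀ c : ℕ, 0 < c → c < 5 → ¬ p ∣ c := fun c h0 h5 h => by
    have := Nat.le_of_dvd h0 h; omega
  have h6 : ¬ p ∣ 6 := fun h => by
    rcases hp.dvd_mul.mp (show p ∣ 2 * 3 from h) with h | h
    · exact hsmall 2 two_pos (by norm_num) h
    · exact hsmall 3 (by norm_num) (by norm_num) h
  have hpp : ∀ {L c : ℕ}, L ≠ 0 → ¬ p ∣ L → psi L = c * psi M →
      psi (L * p) = c * psi (M * p) := fun {L c} hL hpL h => by
    rw [psi_mul_prime hL hp, psi_mul_prime hM0 hp, if_neg hpL, if_neg hpM, h, mul_assoc]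
  by_cases h4 : 4 ∣ M
  · exact ⟨M, 1, hM0, dvd_rfl, h4, hpM, hp.not_dvd_one, hpp hM0 hpM (one_mul _).symm⟩
  by_cases h2 : 2 ∣ M
  · obtain ⟨M', rfl⟩ := h2
    have h2' : ¬ 2 ∣ M' := fun ⟨x, hx⟩ => h4 ⟨x, by rw [hx]; ring⟩
    have hL : ¬ p ∣ 2 * M' * 2 := fun h =>
      (hp.dvd_mul.mp h).elim hpM (hsmall 2 two_pos (by norm_num))
    refine ⟨2 * M' * 2, 2, by omega, dvd_mul_right _ 2, ⟨M', by ring⟩, hL,
      hsmall 2 two_pos (by norm_num), hpp (by omega) hL ?_⟩
    rw [psi_mul_prime hM0 Nat.prime_two, if_pos (dvd_mul_right 2 M')]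
    ring
  · have hL : ¬ p ∣ M * 4 := fun h =>
      (hp.dvd_mul.mp h).elim hpM (hsmall 4 (by norm_num) (by norm_num))
    exact ⟨M * 4, 6, by omega, dvd_mul_right _ 4, dvd_mul_left 4 M, hL, h6,
      hpp (by omega) hL (psi_four hM0 h2)⟩

/-- The residue map at a place over `p`. -/
theorem residueAt {A : ValuationSubring Qbar} {p : ℕ} [Fact p.Prime] (hA : A.LiesOverPrime p) :
    TwoComponent.ResidueAt A p (IsLocalRing.residue A) where
  surj := IsLocalRing.residue_surjective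
  charP := Red.charP_residueField A hA
  arch a b ha hb := by
    refine TwoComponent.exists_pow_eq_mul hA (fun x => Algebra.IsAlgebraic.isAlgebraic (R := ℚ) x)
      a b ?_ hb
    have h : a ∈ IsLocalRing.maximalIdeal A := (IsLocalRing.residue_eq_zero_iff _).mp ha
    exact ValuationSubring.coe_mem_nonunits_iff.mpr h

end Fermat.Agent.LoweringAtP.Setup
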