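import Fermat.Agent.LoweringAtP.OddPrimes.Lowering

/-!
# Level lowering at `p` for the Frey curve

A Frey package modular of level `M p`, `p ∤ M`, is modular of level `M`: the curve has a flat point
at every place over `p`, and this moves to the integral model of the congruence.
-/

noncomputable section

open WeierstrassCurve WeierstrassCurve.Affine.Point
open scoped WeierstrassCurve.Affine

namespace Fermat.Agent.LoweringAtP.Setup

local notation "Qbar" => AlgebraicClosure ℚ

/-- An equivariant isomorphism between the torsion of a curve and of an integral model of it. -/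
theorem exists_torsion_equiv {E : WeierstrassCurve ℚ} {W : WeierstrassCurve ℤ}
    (hW : W.IsIntegralModelOf E) (p : ℕ) :
    ∃ e : Submodule.torsionBy ℤ (E⁄Qbar).Point (p : ℤ) ≃+
        Submodule.torsionBy ℤ ((W.map (Int.castRingHom ℚ))⁄Qbar).Point (p : ℤ),
      ∀ (g : AlgebraicClosure ℚ ≃ₐ[ℚ] AlgebraicClosure ℚ) x, e (g • x) = g • e x := by
  obtain ⟨C, hC⟩ := hW
  rw [← hC]
  refine ⟨(EC.torsionEquiv (K := Qbar) C E p).symm.toAddEquiv, fun g x => ?_⟩
  apply (EC.torsionEquiv (K := Qbar) C E p).injective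
  rw [EC.torsionEquiv_smul]
  simp

/-- Every integral model of the Frey curve has a flat point at every place over `p ∣ N`. -/
theorem hasFlatPoint_of_model {P : FreyPackage} [Fact P.p.Prime] {N : ℕ}
    (hcond : P.IsConductorLevel N) (hpN : P.p ∣ N) {W : WeierstrassCurve ℤ}
    (hW : W.IsIntegralModelOf P.freyCurve) {A : ValuationSubring (AlgebraicClosure ℚ)}
    (hA : A.LiesOverPrime P.p) : OddPrimes.HasFlatPoint W P.p A := by
  obtain ⟨x, t, a, hx, ha, ha0, he, hfix⟩ := exists_frey_point hcond hpN hA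
  obtain ⟨e, he'⟩ := exists_torsion_equiv hW P.p
  exact ⟨e x, t, a, fun h => hx (e.injective (h.trans (map_zero e).symm)), ha, ha0, he,
    hfix.imp (fun h σ hσ => by rw [← he', h σ hσ])
      fun ⟨h1, h⟩ => ⟨h1, fun σ hσ => by rw [← he', h σ hσ]⟩⟩

/-- **Mazur's principle at `p`** for the Frey curve. -/
theorem level_lowering_at_p (P : FreyPackage) {N : ℕ} (hcond : P.IsConductorLevel N)
    (hpN : P.p ∣ N) (hirr : GaloisRepIsIrreducible (K := Qbar) ℚ P.freyCurve P.p)
    (hmod : P.ModularRepOfLevel N) :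
    ∃ M : ℕ, M ∣ N ∧ ¬ P.p ∣ M ∧ P.ModularRepOfLevel M := by
  obtain ⟨M, rfl⟩ := hpN
  have : Fact P.p.Prime := ⟨P.pp⟩
  have hpM : ¬ P.p ∣ M := fun h => hcond.sq_not_dvd P.pp (by
    rw [pow_two]; exact mul_dvd_mul_left _ h)
  have : NeZero M := ⟨fun h => hcond.pos.ne' (by rw [h, mul_zero])⟩
  obtain ⟨f, W, 𝔪, hf, hW, h𝔪, hp𝔪, hcong⟩ := hmod
  have hmodW : W.IsResiduallyModularOfLevel P.p (P.p * M) := ⟨f, 𝔪, hf, h𝔪, hp𝔪, hcong⟩
  have hirr' : W.ModRepIsIrreducible P.p := by
    obtain ⟨C, hC⟩ := hW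
    show GaloisRepIsIrreducible (K := Qbar) ℚ (W.map (Int.castRingHom ℚ)) P.p
    rw [← hC]; exact (EC.galoisRepIsIrreducible_variableChange C P.freyCurve P.p).mpr hirr
  refine ⟨M, dvd_mul_left M P.p, hpM, HeckeCompat.modularRepOfLevel_of_residuallyModular hW
    (OddPrimes.lowering_of_levels (by have := P.hp5; omega)
      (HeckeCompat.model_Δ_ne_zero (HeckeCompat.model_elliptic hW)) hirr'
      (fun A hA => hasFlatPoint_of_model hcond (dvd_mul_right _ M) hW hA)
      (OddPrimes.hasLevels_of_five_le P.hp5 hpM) (mul_comm P.p M ▸ hmodW))⟩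

end Fermat.Agent.LoweringAtP.Setup
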