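import Fermat.Agent.LoweringAtP.Setup.Rational

/-!
# The field of functions with fixed coefficients

`fixedField N H` consists of the functions of level `N` all of whose `q`-coefficients are fixed by
`H`.  For `H` the stabiliser of `t` in inertia it is the field `K₀(t)(X₀(N))` of `EisData`.
-/

noncomputable section

open ModularCurve AlgebraicCurve

namespace Fermat.Agent.LoweringAtP.Setup

local notation "Qbar" => AlgebraicClosure ℚ
local notation "GQ" => AlgebraicClosure ℚ ≃ₐ[ℚ] AlgebraicClosure ℚ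

/-- The functions with coefficients fixed by `H`. -/
def fixedField (N : ℕ) (H : Subgroup GQ) : Subfield (modularFunctionFieldBar N) where
  carrier := {u | ∀ σ ∈ H, coeffAct (N := N) σ • u = u}
  mul_mem' := fun {a b} ha hb σ hσ => by rw [smul_mul', ha σ hσ, hb σ hσ]
  one_mem' := fun σ _ => smul_one _
  add_mem' := fun {a b} ha hb σ hσ => by rw [smul_add, ha σ hσ, hb σ hσ]
  zero_mem' := fun σ _ => smul_zero _
  neg_mem' := fun {a} ha σ hσ => by rw [smul_neg, ha σ hσ]
  inv_mem' := fun a ha σ hσ => by rw [smul_inv'', ha σ hσ]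

variable {N : ℕ}

theorem mem_fixedField_iff {H : Subgroup GQ} {u : modularFunctionFieldBar N} :
    u ∈ fixedField N H ↔ CoeffFixed H u := by
  refine ⟨fun h σ hσ n => ?_, fun h σ hσ => coeffAct_smul_eq h hσ⟩
  conv_rhs => rw [← h σ hσ, coe_coeffAct_smul, coeffMap_coeff]
  rfl

theorem algebraMap_mem_fixedField {H : Subgroup GQ} {c : Qbar} :
    algebraMap Qbar (modularFunctionFieldBar N) c ∈ fixedField N H ↔ ∀ σ ∈ H, σ c = c := by
  refine forall₂_congr fun σ _ => ?_
  rw [SemilinearAut.smul_algebraMap]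
  exact ⟨fun h => (algebraMap Qbar (modularFunctionFieldBar N)).injective h, fun h => congrArg _ h⟩

variable {A : ValuationSubring Qbar} {k Fk S : Type*} [Field k] [Field Fk] [Algebra k Fk]
  [Fintype S]
  {π : A →+* k} {T : TwoComponent.TwoRed A π (modularFunctionFieldBar N) Fk S} {Ud : UnitData T}
  {Q₀ : RatData Ud} {p : ℕ} (X : EisData Q₀ p)

/-- The field of `X` consists of the functions fixed by the stabiliser of `ϖ`. -/
theorem mem_field_iff
    (hF₀ : ∀ u : modularFunctionFieldBar N, u ∈ Q₀.F₀ ↔ CoeffFixed (A.inertiaSubgroupIn ℚ) u)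
    {u : modularFunctionFieldBar N} :
    u ∈ X.field ↔ CoeffFixed (inertiaStab A (X.ϖ : Qbar)) u := by
  refine ⟨fun hu => ?_, fun hu => mem_field_of_fixed X (fun v hv => (hF₀ v).mpr hv) hu⟩
  obtain ⟨w, hw, rfl⟩ := X.exists_coeffs hu
  rw [← mem_fixedField_iff]
  exact sum_mem fun j _ => mul_mem
    (pow_mem (algebraMap_mem_fixedField.mpr fun σ (hσ : σ ∈ inertiaStab A _) => hσ.2) _)
    (mem_fixedField_iff.mpr fun σ hσ => (hF₀ _).mp (hw j) σ hσ.1)

/-- The constants of `X` are the numbers fixed by the stabiliser of `ϖ`. -/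
theorem mem_constants_iff
    (hF₀ : ∀ u : modularFunctionFieldBar N, u ∈ Q₀.F₀ ↔ CoeffFixed (A.inertiaSubgroupIn ℚ) u)
    {c : Qbar} : c ∈ X.ratData.K₀ ↔ ∀ σ ∈ inertiaStab A (X.ϖ : Qbar), σ c = c :=
  (mem_field_iff X hF₀).trans (mem_fixedField_iff.symm.trans algebraMap_mem_fixedField)

end Fermat.Agent.LoweringAtP.Setup
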