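import Fermat.Agent.LoweringAtP.Setup.Pullback
import Fermat.Agent.TwoComponent.ModelBase

/-!
# The map from level `M q` to level `L q` for `M ∣ L`

The inclusion of function fields used to pass to an auxiliary level, and its degree.
-/

noncomputable section

open ModularCurve AlgebraicCurve IntermediateField Fermat.Agent.Igusa

namespace Fermat.Agent.LoweringAtP.Setup

local notation "Qbar" => AlgebraicClosure ℚ

variable {M L : ℕ} (q : ℕ) [Fact q.Prime] [NeZero M] [NeZero L]

omit [Fact (Nat.Prime q)] [NeZero M] [NeZero L] in
theorem FN_le (hML : M ∣ L) : TwoComponent.FN M q ≤ TwoComponent.FN L q := by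
  rw [TwoComponent.FN_eq, TwoComponent.FN_eq]
  exact full_le_iff.mpr fun d hd0 hd =>
    jv_mem_full hd0 (hd.trans (mul_dvd_mul_right hML q))

/-- The inclusion of levels. -/
def levelMap (hML : M ∣ L) : TwoComponent.FN M q →ₐ[Qbar] TwoComponent.FN L q :=
  IntermediateField.inclusion (FN_le q hML)

omit [Fact (Nat.Prime q)] [NeZero M] [NeZero L] in
theorem coe_levelMap (hML : M ∣ L) (f : TwoComponent.FN M q) :
    (levelMap q hML f : LaurentSeries Qbar) = (f : LaurentSeries Qbar) :=
  IntermediateField.coe_inclusion _ f

omit [Fact (Nat.Prime q)] [NeZero M] [NeZero L] in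
theorem levelMap_jOne (hML : M ∣ L) : levelMap q hML (TwoComponent.jOne M q) =
    TwoComponent.jOne L q :=
  Subtype.ext (coe_levelMap q hML _)

/-- The degree of the map between two levels is the quotient of their indices. -/
theorem finrank_levelMap (hML : M ∣ L) {c : ℕ} (hc : psi (L * q) = c * psi (M * q)) :
    finrankAlong Qbar (levelMap q hML) = c := by
  have h := Hecke.finrank_adjoin_apply (levelMap q hML) (TwoComponent.jOne M q)
  rw [levelMap_jOne, TwoComponent.finrank_jOne, TwoComponent.finrank_jOne, hc, mul_comm c] at h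
  exact (Nat.eq_of_mul_eq_mul_left (psi_pos _) h).symm

end Fermat.Agent.LoweringAtP.Setup
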