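import Fermat.Prelude.Def_ModularCurve_ArithmeticGalois
import Fermat.Agent.LoweringAtP.Main
import Fermat.Agent.LoweringAtP.PeuRamifie.Basic
import Fermat.Agent.LoweringAtP.PeuRamifie.Descent

/-!
# Functions with fixed coefficients: descent

For a function with coefficients fixed by `H` and `div f = m D`, every `L(D + n (x)_∞)` is spanned
by its elements with coefficients fixed by `H`; fixed by the stabiliser of `t` in inertia means
rational over the inertia field with `t` adjoined.
-/

noncomputable section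

open ModularCurve AlgebraicCurve

namespace Fermat.Agent.LoweringAtP.Setup

local notation "Qbar" => AlgebraicClosure ℚ
local notation "GQ" => AlgebraicClosure ℚ ≃ₐ[ℚ] AlgebraicClosure ℚ

variable {N : ℕ}

local notation "FB" => modularFunctionFieldBar N

/-- All coefficients are fixed by `H`. -/
def CoeffFixed (H : Subgroup GQ) (u : FB) : Prop :=
  ∀ σ ∈ H, ∀ n : ℤ, σ ((u : LaurentSeries Qbar).coeff n) = (u : LaurentSeries Qbar).coeff n

/-- Galois acting on the coefficients. -/
abbrev coeffAct (σ : GQ) : SemilinearAut Qbar FB :=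
  arithmeticGalois (modularFunctionFieldFull N) σ

theorem coe_coeffAct_smul (σ : GQ) (u : FB) :
    ((coeffAct (N := N) σ • u : FB) : LaurentSeries Qbar) =
      coeffMap (σ : Qbar →+* Qbar) (u : LaurentSeries Qbar) := rfl

theorem coeffAct_smul_eq {H : Subgroup GQ} {u : FB} (hu : CoeffFixed H u) {σ : GQ} (hσ : σ ∈ H) :
    coeffAct (N := N) σ • u = u :=
  Subtype.ext (HahnSeries.ext (funext fun n => hu σ hσ n))

theorem coeffFixed_one (H : Subgroup GQ) : CoeffFixed H (1 : FB) := fun σ _ n => by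
  show σ ((1 : LaurentSeries Qbar).coeff n) = _
  rw [HahnSeries.coeff_one]
  show σ _ = (1 : LaurentSeries Qbar).coeff n
  rw [HahnSeries.coeff_one]
  split_ifs <;> simp

/-- The series of a function. -/
def seriesLin (N : ℕ) : modularFunctionFieldBar N →ₗ[Qbar] LaurentSeries Qbar where
  toFun u := (u : LaurentSeries Qbar)
  map_add' _ _ := rfl
  map_smul' c u := by
    refine HahnSeries.ext (funext fun n => ?_)
    rw [Algebra.smul_def, IntermediateField.coe_mul, RingHom.id_apply, HahnSeries.coeff_smul,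
      smul_eq_mul, show ((algebraMap Qbar (modularFunctionFieldBar N) c :
        modularFunctionFieldBar N) :
        LaurentSeries Qbar) = algebraMap Qbar (LaurentSeries Qbar) c from rfl,
      algebraMap_laurentSeries_eq_single, HahnSeries.coeff_single_mul, sub_zero]

theorem seriesLin_injective : Function.Injective (seriesLin N) := fun _ _ h => Subtype.ext h

theorem seriesLin_apply (u : FB) : seriesLin N u = (u : LaurentSeries Qbar) := rfl

/-- The spaces are spanned by fixed functions. -/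
theorem rr_le_span_fixed (H : Subgroup GQ) {m : ℤ} (hm : m ≠ 0) {D : Divisor Qbar FB} {f : FB}
    (hf : CoeffFixed H f) (hdiv : ∀ P : Place Qbar FB, P.ord f = m * D P) {x : FB}
    (hx : CoeffFixed H x) {G : Divisor Qbar FB}
    (hG : ∀ P : Place Qbar FB, G P = max 0 (-P.ord x)) (n : ℕ)
    [FiniteDimensional Qbar (riemannRochSpace (D + n • G))] :
    riemannRochSpace (D + n • G) ≤
      Submodule.span Qbar {u | CoeffFixed H u ∧ u ∈ riemannRochSpace (D + n • G)} := by
  set W := riemannRochSpace (D + n • G) with hW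
  let ι := seriesLin N
  have hι : Function.Injective ι := seriesLin_injective
  have hst : ∀ g ∈ ((fun σ : GQ => (σ : Qbar →+* Qbar)) '' H), ∀ y ∈ W.map ι,
      coeffMap g y ∈ W.map ι := by
    rintro _ ⟨σ, hσ, rfl⟩ _ ⟨u, hu, rfl⟩
    refine ⟨coeffAct (N := N) σ • u, mem_riemannRochSpace_iff.mpr fun P => ?_, ?_⟩
    swap
    · simp only [ι, seriesLin_apply]
      exact coe_coeffAct_smul σ u
    have hinv : ∀ {y : FB}, CoeffFixed H y →
        ((coeffAct (N := N) σ)⁻¹ • P).ord y = P.ord y := fun {y} hy => by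
      have := SemilinearAut.ord_smul (coeffAct σ) ((coeffAct (N := N) σ)⁻¹ • P) y
      rw [smul_inv_smul, coeffAct_smul_eq hy hσ] at this
      exact this.symm
    rcases (mem_riemannRochSpace_iff.mp hu) ((coeffAct (N := N) σ)⁻¹ • P) with h | h
    · left; rw [h, smul_zero]
    right
    have e1 := SemilinearAut.ord_smul (coeffAct σ) ((coeffAct (N := N) σ)⁻¹ • P) u
    rw [smul_inv_smul] at e1
    have e2 : D ((coeffAct (N := N) σ)⁻¹ • P) = D P := mul_left_cancel₀ hm (by
      rw [← hdiv, ← hdiv, hinv hf])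
    have e3 : G ((coeffAct (N := N) σ)⁻¹ • P) = G P := by rw [hG, hG, hinv hx]
    rw [e1]
    simpa only [Finsupp.add_apply, Finsupp.smul_apply, e2, e3] using h
  have hsub := PeuRamifie.le_span_fixed _ (W.map ι) hst
  refine (Submodule.map_le_map_iff_of_injective hι _ _).mp (hsub.trans ?_)
  rw [Submodule.map_span]
  refine Submodule.span_mono ?_
  rintro _ ⟨⟨u, hu, rfl⟩, hfix⟩
  exact ⟨u, ⟨fun σ hσ l => hfix l _ ⟨σ, hσ, rfl⟩, hu⟩, rfl⟩

/-- Fixed by the stabiliser of `t`: a combination of powers of `t` and fixed functions. -/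
theorem exists_expansion_fixed (G : Subgroup GQ) (t : Qbar) {u : FB}
    (hu : ∀ σ ∈ G, σ t = t → ∀ n : ℤ,
      σ ((u : LaurentSeries Qbar).coeff n) = (u : LaurentSeries Qbar).coeff n) :
    ∃ (c : ℕ) (w : ℕ → FB), (∀ i, CoeffFixed G (w i)) ∧
      u = ∑ i ∈ Finset.range c, algebraMap Qbar FB t ^ i * w i := by
  classical
  have hne : minpoly ℚ t ≠ 0 :=
    minpoly.ne_zero (Algebra.IsAlgebraic.isAlgebraic (R := ℚ) t).isIntegral
  have hfin : {y : Qbar | ∃ g ∈ G, g t = y}.Finite := by
    refine ((minpoly ℚ t).rootSet_finite Qbar).subset ?_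
    rintro _ ⟨g, -, rfl⟩
    refine Polynomial.mem_rootSet.mpr ⟨hne, ?_⟩
    show Polynomial.aeval (g.toAlgHom t) (minpoly ℚ t) = 0
    rw [Polynomial.aeval_algHom_apply, minpoly.aeval, map_zero]
  let ι := seriesLin N
  obtain ⟨w, hw, he⟩ := PeuRamifie.exists_expansion G (t := t) hfin.toFinset
    (hfin.mem_toFinset.mpr ⟨1, one_mem G, rfl⟩) (fun y hy => hfin.mem_toFinset.mp hy)
    (fun g hg y hy => hfin.mem_toFinset.mpr (by
      obtain ⟨g', hg', rfl⟩ := hfin.mem_toFinset.mp hy
      exact ⟨g * g', mul_mem hg hg', rfl⟩))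
    (LinearMap.range ι) (fun g _ y hy => by
      obtain ⟨z, rfl⟩ := hy
      refine ⟨coeffAct (N := N) g • z, ?_⟩
      simp only [ι, seriesLin_apply]
      exact coe_coeffAct_smul g z)
    (f := (u : LaurentSeries Qbar)) ⟨u, rfl⟩ hu
  choose v hv using fun i => (hw i).1
  refine ⟨_, v, fun i σ hσ n => ?_, seriesLin_injective ((he.trans
    (Finset.sum_congr rfl fun i _ => ?_)).trans (map_sum (seriesLin N) _ _).symm)⟩
  · have := (hw i).2 σ hσ n
    rw [← hv i] at this
    exact this
  · rw [← hv i, ← map_pow, ← Algebra.smul_def, map_smul]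

variable {A : ValuationSubring Qbar} {k Fk S : Type*} [Field k] [Field Fk] [Algebra k Fk]
  [Fintype S]
  {π : A →+* k} {T : TwoComponent.TwoRed A π (modularFunctionFieldBar N) Fk S}
  {Ud : UnitData T} {Q₀ : RatData Ud}

local notation "I" => A.inertiaSubgroupIn ℚ

/-- Rational divisors span over the inertia field. -/
theorem spans_of_fixed (hF₀ : ∀ u : FB, CoeffFixed I u → u ∈ Q₀.F₀) (hx : CoeffFixed I T.x)
    {m : ℤ} (hm : m ≠ 0) {D : Divisor Qbar FB} {f : FB} (hf : CoeffFixed I f)
    (hdiv : ∀ P : Place Qbar FB, P.ord f = m * D P) : Q₀.Spans D := fun n => by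
  have := T.rrF.finiteDim (D + n • T.G)
  exact (rr_le_span_fixed (G := T.G) I hm hf hdiv hx T.G_spec n).trans
    (Submodule.span_mono fun u ⟨h1, h2⟩ => ⟨hF₀ u h1, h2⟩)

theorem spans_zero (hF₀ : ∀ u : FB, CoeffFixed I u → u ∈ Q₀.F₀) (hx : CoeffFixed I T.x) :
    Q₀.Spans 0 :=
  spans_of_fixed hF₀ hx one_ne_zero (coeffFixed_one _) fun P => by
    rw [P.ord_one, Finsupp.coe_zero, Pi.zero_apply, mul_zero]

/-- The stabiliser of `t` in inertia. -/
def inertiaStab (A : ValuationSubring Qbar) (t : Qbar) : Subgroup GQ where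
  carrier := {σ | σ ∈ A.inertiaSubgroupIn ℚ ∧ σ t = t}
  one_mem' := ⟨one_mem _, rfl⟩
  mul_mem' := fun {a b} ha hb =>
    ⟨mul_mem ha.1 hb.1, by rw [AlgEquiv.mul_apply, hb.2, ha.2]⟩
  inv_mem' := fun {a} ha => ⟨inv_mem ha.1, (congrArg a.symm ha.2).symm.trans (a.symm_apply_apply t)⟩

/-- A function fixed by the inertia stabiliser of `ϖ` lies in the Eisenstein field. -/
theorem mem_field_of_fixed {p : ℕ} (X : EisData Q₀ p)
    (hF₀ : ∀ u : FB, CoeffFixed I u → u ∈ Q₀.F₀) {u : FB}
    (hu : CoeffFixed (inertiaStab A (X.ϖ : Qbar)) u) : u ∈ X.field := by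
  obtain ⟨c, w, hw, rfl⟩ := exists_expansion_fixed I (X.ϖ : Qbar)
    fun σ hσ ht n => hu σ ⟨hσ, ht⟩ n
  exact sum_mem fun i _ => mul_mem (pow_mem X.ϖ_mem_field i) (X.mem_field_of_rat (hF₀ _ (hw i)))

/-- The spaces of a divisor with a multiple principal over the field are spanned rationally. -/
theorem spans_field_of_fixed {p : ℕ} (X : EisData Q₀ p)
    (hF₀ : ∀ u : FB, CoeffFixed I u → u ∈ Q₀.F₀) (hx : CoeffFixed I T.x) {m : ℤ} (hm : m ≠ 0)
    {D : Divisor Qbar FB} {f : FB} (hf : CoeffFixed (inertiaStab A (X.ϖ : Qbar)) f)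
    (hdiv : ∀ P : Place Qbar FB, P.ord f = m * D P) : X.ratData.Spans D := fun n => by
  have := T.rrF.finiteDim (D + n • T.G)
  exact (rr_le_span_fixed (G := T.G) _ hm hf hdiv (fun σ hσ => hx σ hσ.1) T.G_spec n).trans
    (Submodule.span_mono fun u ⟨h1, h2⟩ => ⟨mem_field_of_fixed X hF₀ h1, h2⟩)

end Fermat.Agent.LoweringAtP.Setup
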