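import Fermat.Prelude.Def_FreyPackage_IsConductorLevel
import Fermat.Agent.LoweringAtP.PeuRamifie.Main
import Fermat.Agent.LoweringAtP.Setup.Rational
import Fermat.Agent.Tate.Frey

/-!
# The point of the Frey curve used by Mazur's principle at `p`

Either a nonzero `p`-torsion point is fixed by inertia, or one is fixed by the stabiliser of a root
`t` of an Eisenstein equation with unit linear coefficient.  In both cases we record an equation.
-/

noncomputable section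

namespace Fermat.Agent.LoweringAtP.Setup

open WeierstrassCurve Fermat.Agent.LoweringAtP.PeuRamifie
open scoped WeierstrassCurve.Affine

local notation "Qbar" => AlgebraicClosure ℚ

variable {A : ValuationSubring (AlgebraicClosure ℚ)}

/-- The arithmetic of the Frey curve at `p`. -/
theorem frey_at_p {P : FreyPackage} {N : ℕ} (hcond : P.IsConductorLevel N) (hpN : P.p ∣ N) :
    (P.p : ℤ) ∣ P.freyCurveInt.Δ ∧ ¬ (P.p : ℤ) ∣ P.freyCurveInt.c₄ ∧
      P.p ∣ padicValInt P.p P.freyCurveInt.Δ := by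
  have hp : P.p.Prime := P.pp
  have : Fact P.p.Prime := ⟨hp⟩
  have h256 : ¬ (P.p : ℤ) ∣ 256 := fun h => by
    have h2 : P.p ∣ 2 ^ 8 := by exact_mod_cast h
    have := (Nat.prime_dvd_prime_iff_eq hp Nat.prime_two).1 (hp.dvd_of_dvd_pow h2)
    have := P.hp5
    omega
  have hΔ : (P.p : ℤ) ∣ P.freyCurveInt.Δ := by
    have h : (P.p : ℤ) ∣ P.freyCurveInt.Δ * 256 := by
      rw [Tate.freyCurveInt_Δ]
      exact dvd_pow (dvd_pow (hcond.p_dvd_abc hpN) two_ne_zero) hp.ne_zero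
    exact ((Nat.prime_iff_prime_int.1 hp).dvd_or_dvd h).resolve_right h256
  refine ⟨hΔ, Tate.frey_multiplicative P hp hΔ, ?_⟩
  have h := congrArg (padicValInt P.p) (Tate.freyCurveInt_Δ P)
  rw [padicValInt.mul (Frey.freyCurveInt_Δ_ne_zero P) (by norm_num),
    padicValInt.eq_zero_of_not_dvd h256, add_zero] at h
  rw [h]
  have hne : (P.a * P.b * P.c) ^ 2 ≠ 0 := pow_ne_zero _ P.habc0
  refine ⟨padicValInt P.p ((P.a * P.b * P.c) ^ 2), ?_⟩
  rw [padicValInt, padicValInt, Int.natAbs_pow ((P.a * P.b * P.c) ^ 2),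
    padicValNat.pow]

/-- The equation `t ^ p = p`, recorded when a point is fixed by inertia itself. -/
theorem exists_root_eq_p {p : ℕ} [Fact p.Prime] (hA : A.LiesOverPrime p) :
    ∃ (t : A) (a : Fin p → A), (∀ j, (a j : Qbar) ∈ inertiaField A) ∧
      A.valuation (a ⟨0, (Fact.out : p.Prime).pos⟩ : Qbar) = 1 ∧
      (t : Qbar) ^ p = (p : Qbar) * ∑ j, (a j : Qbar) * (t : Qbar) ^ (j : ℕ) := by
  classical
  have hp : p.Prime := Fact.out
  obtain ⟨r, hr⟩ := IsAlgClosed.exists_pow_nat_eq (p : Qbar) hp.pos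
  have hrA : r ∈ A := by
    refine (A.valuation_le_one_iff r).mp ?_
    by_contra hlt
    push Not at hlt
    have h1 : A.valuation r ^ p < 1 := by
      rw [← map_pow, hr]; exact A.mem_nonunits_iff.mp hA
    exact absurd h1 (not_lt.mpr (one_le_pow₀ hlt.le))
  let a : Fin p → A := fun j => if (j : ℕ) = 0 then 1 else 0
  refine ⟨⟨r, hrA⟩, a, fun j => ?_, ?_, ?_⟩
  · simp only [a]
    split_ifs
    · exact one_mem _
    · exact zero_mem _
  · simp only [a, if_true, OneMemClass.coe_one, map_one]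
  · show r ^ p = _
    rw [hr, Finset.sum_eq_single ⟨0, hp.pos⟩]
    · simp [a]
    · intro j _ hj
      have : (j : ℕ) ≠ 0 := fun h => hj (Fin.ext h)
      simp only [a, if_neg this]
      rw [ZeroMemClass.coe_zero, zero_mul]
    · exact fun h => absurd (Finset.mem_univ _) h

/-- **The point**, for a multiplicative integral model with `p ∣ v_p(Δ)`. -/
theorem exists_mult_point (W : WeierstrassCurve ℤ) {p : ℕ} [Fact p.Prime] (hp2 : p ≠ 2)
    (hA : A.LiesOverPrime p) (hΔ0 : W.Δ ≠ 0) (hΔ : (p : ℤ) ∣ W.Δ) (hc₄ : ¬ (p : ℤ) ∣ W.c₄)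
    (hv : p ∣ padicValInt p W.Δ) :
    ∃ (x : Submodule.torsionBy ℤ ((W.map (Int.castRingHom ℚ))⁄Qbar).Point (p : ℤ)) (t : A)
      (a : Fin p → A),
      x ≠ 0 ∧ (∀ j, (a j : Qbar) ∈ inertiaField A) ∧
      A.valuation (a ⟨0, (Fact.out : p.Prime).pos⟩ : Qbar) = 1 ∧
      (t : Qbar) ^ p = (p : Qbar) * ∑ j, (a j : Qbar) * (t : Qbar) ^ (j : ℕ) ∧
      ((∀ σ ∈ A.inertiaSubgroupIn ℚ, σ • x = x) ∨
        (A.valuation (a ⟨1, (Fact.out : p.Prime).one_lt⟩ : Qbar) = 1 ∧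
          ∀ σ ∈ inertiaStab A (t : Qbar), σ • x = x)) := by
  obtain ⟨Q, hQ, hQ0, hcase⟩ :=
    exists_peu (A := A) W hp2 hA hΔ0 hΔ hc₄ hv
  have hne : Q ≠ 0 := fun h => hQ0 (h ▸ Tate.inE0_zero)
  let x : Submodule.torsionBy ℤ ((W.map (Int.castRingHom ℚ))⁄Qbar).Point (p : ℤ) :=
    ⟨Q, by rw [Submodule.mem_torsionBy_iff, natCast_zsmul]; exact hQ⟩
  have hx : x ≠ 0 := fun h => hne (congrArg Subtype.val h)
  rcases hcase with hfix | ⟨t, a, ha, ha0, ha1, he, hfix⟩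
  · obtain ⟨t, a, ha, ha0, he⟩ := exists_root_eq_p (p := p) hA
    exact ⟨x, t, a, hx, ha, ha0, he, Or.inl fun σ hσ => Subtype.ext (hfix σ hσ)⟩
  · exact ⟨x, t, a, hx, ha, ha0, he, Or.inr ⟨ha1, fun σ hσ => Subtype.ext (hfix σ hσ.1 hσ.2)⟩⟩

/-- **The point.** -/
theorem exists_frey_point {P : FreyPackage} [Fact P.p.Prime] {N : ℕ}
    (hcond : P.IsConductorLevel N) (hpN : P.p ∣ N) (hA : A.LiesOverPrime P.p) :
    ∃ (x : Submodule.torsionBy ℤ (P.freyCurve⁄Qbar).Point (P.p : ℤ)) (t : A) (a : Fin P.p → A),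
      x ≠ 0 ∧ (∀ j, (a j : Qbar) ∈ inertiaField A) ∧
      A.valuation (a ⟨0, P.pp.pos⟩ : Qbar) = 1 ∧
      (t : Qbar) ^ P.p = (P.p : Qbar) * ∑ j, (a j : Qbar) * (t : Qbar) ^ (j : ℕ) ∧
      ((∀ σ ∈ A.inertiaSubgroupIn ℚ, σ • x = x) ∨
        (A.valuation (a ⟨1, P.pp.one_lt⟩ : Qbar) = 1 ∧
          ∀ σ ∈ inertiaStab A (t : Qbar), σ • x = x)) := by
  classical
  obtain ⟨hΔ, hc₄, hv⟩ := frey_at_p hcond hpN
  rw [Frey.freyCurve_eq_map]
  exact exists_mult_point P.freyCurveInt (by have := P.hp5; omega) hA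
    (Frey.freyCurveInt_Δ_ne_zero P) hΔ hc₄ hv

end Fermat.Agent.LoweringAtP.Setup
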