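import Fermat.Agent.LoweringAtP.HeckeCompat.Modular
import Fermat.Agent.LoweringAtP.PeuRamifie.Repr
import Fermat.Agent.LoweringAtP.Setup.Peu

/-!
# The torsion class used by Mazur's principle at `p`

The image in `J₀(N)` of a torsion point fixed by a group `H`, with a representing divisor and a
function with coefficients fixed by `H`.
-/

noncomputable section

namespace Fermat.Agent.LoweringAtP.Setup

open WeierstrassCurve WeierstrassCurve.Affine.Point ModularCurve AlgebraicCurve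
open scoped WeierstrassCurve.Affine

local notation "Qbar" => AlgebraicClosure ℚ

/-- A rational torsion eigenvector from an equivariant map and a point. -/
theorem exists_class_of_map {N p : ℕ} [NeZero N] [_hp : Fact p.Prime] {W : WeierstrassCurve ℤ}
    {E : WeierstrassCurve ℚ}
    (ι : Submodule.torsionBy ℤ (E⁄Qbar).Point (p : ℤ) →+ JZero N) (hι : Function.Injective ι)
    (hequiv : ∀ (g : AlgebraicClosure ℚ ≃ₐ[ℚ] AlgebraicClosure ℚ) y, ι (g • y) = g • ι y)
    (htor : ∀ y, p • ι y = 0)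
    (heig : ∀ ℓ : Nat.Primes, (ℓ : ℕ) ∉ HeckeCompat.badSet N p W → ∀ y,
      heckeOperatorBar N ℓ (ι y) = W.apOfModel ℓ • ι y)
    {x : Submodule.torsionBy ℤ (E⁄Qbar).Point (p : ℤ)} (hx : x ≠ 0)
    {H : Subgroup (AlgebraicClosure ℚ ≃ₐ[ℚ] AlgebraicClosure ℚ)} (hH : ∀ σ ∈ H, σ • x = x) :
    ∃ (D : Divisor.degZero (K := Qbar) (F := modularFunctionFieldBar N))
      (f : modularFunctionFieldBar N), Pic0.mk D ≠ 0 ∧
      (∀ ℓ : Nat.Primes, (ℓ : ℕ) ∉ HeckeCompat.badSet N p W →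
        heckeOperatorBar N ℓ (Pic0.mk D) = W.apOfModel ℓ • Pic0.mk D) ∧
      f ≠ 0 ∧ (∀ Q : Place Qbar (modularFunctionFieldBar N),
        Q.ord f = (p : ℤ) * (D : Divisor Qbar (modularFunctionFieldBar N)) Q) ∧
      CoeffFixed H f := by
  obtain ⟨D, f, hD, -, hf, hdiv, hfc⟩ := PeuRamifie.exists_fixed_rep H (htor x)
    fun σ hσ => by rw [← hequiv, hH σ hσ]
  have hz : ι x ≠ 0 := fun h => hx (hι (by rw [h, _root_.map_zero]))
  exact ⟨D, f, hD ▸ hz, fun ℓ hℓ => hD ▸ heig ℓ hℓ x, hf, hdiv, fun σ hσ n => hfc n σ hσ⟩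

end Fermat.Agent.LoweringAtP.Setup
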