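import Fermat.Agent.LoweringAtP.Model.RatData
import Fermat.Agent.LoweringAtP.Setup.LevelMap

/-!
# Mazur's principle at `p` on `X₀(L p)`

A torsion divisor of level `M p` given by a function with coefficients fixed by inertia, or by the
stabiliser of an Eisenstein root with unit linear coefficient, becomes principal at level `L p`
unless one of the alternatives `R` of the Hecke inputs holds; it is then principal if the degree
of level `L p` over level `M p` is prime to `p`.
-/

noncomputable section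

open ModularCurve AlgebraicCurve Fermat.Agent.Igusa Fermat.Agent.TwoComponent

namespace Fermat.Agent.LoweringAtP.Setup

local notation "Qbar" => AlgebraicClosure ℚ

variable {p : ℕ} [hp : Fact p.Prime] {M L : ℕ} [NeZero M] [NeZero L] {hpL : ¬ p ∣ L}
variable {A : ValuationSubring (AlgebraicClosure ℚ)}
  {k : Type*} [Field k] [CharP k p] [IsAlgClosed k]
  {π : A →+* k} {hres : TwoComponent.ResidueAt A p π}
  {hgen : genusFF (AlgebraicClosure ℚ) (modularFunctionFieldBar L) ≤ genusFF k
    (TwoComponent.CK L k)}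
  {Ud : UnitData (TwoComponent.modelTwoRed L p hpL hres hgen)} {Q₀ : RatData Ud}

local notation "TT" => TwoComponent.modelTwoRed L p hpL hres hgen

omit hp [NeZero M] [NeZero L] in
theorem coeffFixed_levelMap (hML : M ∣ L)
    {H : Subgroup (AlgebraicClosure ℚ ≃ₐ[ℚ] AlgebraicClosure ℚ)} {f : TwoComponent.FN M p}
    (hf : CoeffFixed (N := M * p) H f) : CoeffFixed (N := L * p) H (levelMap p hML f) := by
  intro σ hσ n
  rw [coe_levelMap]
  exact hf σ hσ n

/-- `p` is a unit times `ϖ ^ p`. -/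
theorem natCast_eq_of_eis (hη : (Ud.η : Qbar) = (p : Qbar)) (X : EisData Q₀ p) :
    (p : Qbar) = (X.ε : Qbar) * (X.ϖ : Qbar) ^ p := hη ▸ X.η_eq

/-- A `p`-torsion class of level `M p` which dies at level `L p` is trivial, if the degree of
level `L p` over level `M p` is prime to `p`. -/
theorem mem_principal_of_levelMap {c : ℕ} (hML : M ∣ L) (hc : psi (L * p) = c * psi (M * p))
    (hpc : ¬ p ∣ c) {D₀ : Divisor Qbar (TwoComponent.FN M p)} {f₀ : TwoComponent.FN M p}
      (hf₀ : f₀ ≠ 0)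
    (hdiv : ∀ P : Place Qbar (TwoComponent.FN M p), P.ord f₀ = (p : ℤ) * D₀ P)
    (h : Divisor.pullbackAlong (levelMap p hML) (integral_along _) D₀ ∈
      Divisor.principal (K := Qbar) (F := TwoComponent.FN L p)) :
    D₀ ∈ Divisor.principal (K := Qbar) (F := TwoComponent.FN M p) := by
  refine mem_principal_of_pullback (levelMap p hML) ?_ hf₀ hdiv h
  rw [finrank_levelMap p hML hc]
  exact ((Nat.Prime.coprime_iff_not_dvd hp.out).mpr hpc).symm

/-- **Mazur's principle at `p` at level `L p`.** -/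
theorem principal_or (hML : M ∣ L) (hp2 : p ≠ 2) (hη : (Ud.η : Qbar) = (p : Qbar))
    (hF₀ : ∀ u : TwoComponent.FN L p, u ∈ Q₀.F₀ ↔
      CoeffFixed (N := L * p) (A.inertiaSubgroupIn ℚ) u)
    [Nonempty (TwoComponent.Node L p hpL hres hgen)]
    (X : EisData Q₀ p)
    {D₀ : Divisor Qbar (TwoComponent.FN M p)} (hdeg : Divisor.degree D₀ = 0)
      {f₀ : TwoComponent.FN M p}
    (hf₀ : f₀ ≠ 0) (hdiv : ∀ P : Place Qbar (TwoComponent.FN M p), P.ord f₀ = (p : ℤ) * D₀ P)
    (hfix : CoeffFixed (N := M * p) (A.inertiaSubgroupIn ℚ) f₀ ∨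
      (X.E ≠ 0 ∧ CoeffFixed (N := M * p) (inertiaStab A (X.ϖ : Qbar)) f₀))
    {R : Prop} {F' : Type*} [Field F'] [Algebra Qbar F'] (ns : ∀ i, NormSide X i F')
    (hlam : SlopesCongr TT p (levelMap p hML f₀) → SlopesZero TT p (levelMap p hML f₀))
    (hred : (∀ i P, (p : ℤ) ∣ redOrd ((TT).R i) (levelMap p hML f₀) P) →
      R ∨ RedPowers TT p (levelMap p hML f₀))
    (hnorm : R ∨ ∀ i, ∃ b : Qbar, ∃ h ∈ (ns i).F₁,
      (ns i).N (levelMap p hML f₀) = algebraMap Qbar F' b * h ^ p) :
    R ∨ Divisor.pullbackAlong (levelMap p hML) (integral_along _) D₀ ∈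
      Divisor.principal (K := Qbar) (F := TwoComponent.FN L p) := by
  set φ := levelMap (M := M) (L := L) p hML with hφ
  set D := Divisor.pullbackAlong φ (integral_along φ) D₀ with hD
  have hf : φ f₀ ≠ 0 := (map_ne_zero φ).mpr hf₀
  have hdeg' : Divisor.degree D = 0 := degree_pullback φ hdeg
  have hdiv' : ∀ P, P.ord (φ f₀) = (p : ℤ) * D P := ord_pullback φ hdiv
  have hx : CoeffFixed (N := L * p) (A.inertiaSubgroupIn ℚ) (TT).x := Model.coeffFixed_x _
  have h00 : Q₀.Spans 0 := spans_zero (fun u hu => (hF₀ u).mpr hu) hx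
  have hpz : (p : ℤ) ≠ 0 := Int.natCast_ne_zero.mpr hp.out.ne_zero
  rcases hfix with hfix | ⟨hE, hfix⟩
  · have hfix' := coeffFixed_levelMap hML hfix
    exact X.mazur_unr hp.out (CharP.cast_eq_zero k p) hp2 X.π_ε (natCast_eq_of_eis hη X) h00
      (spans_of_fixed (fun u hu => (hF₀ u).mpr hu) hx hpz hfix' hdiv') hdeg' ((hF₀ _).mpr hfix')
      hf hdiv' hlam hred ns hnorm
  · have hfix' := coeffFixed_levelMap hML hfix
    exact X.mazur_peu hp.out hp2 X.π_ε (natCast_eq_of_eis hη X) h00 hE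
      (spans_field_of_fixed X (fun u hu => (hF₀ u).mpr hu) hx hpz hfix' hdiv') hdeg'
      (mem_field_of_fixed X (fun u hu => (hF₀ u).mpr hu) hfix') hf hdiv' hlam hred ns hnorm

end Fermat.Agent.LoweringAtP.Setup
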