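import Fermat.Agent.Hecke.BaseChange
import Fermat.Agent.LoweringAtP.HeckeCompat.DeltaNorm
import Fermat.Agent.LoweringAtP.Setup.Base
import Fermat.Agent.LoweringAtP.Setup.Class
import Fermat.Agent.LoweringAtP.Setup.Core
import Fermat.Agent.LoweringAtP.Setup.Fixed

/-!
# Mazur's principle at `p`: assembly

`ModelInputs` is what the model of `X₀(L p)` at `p` provides, `HeckeInputs` what the Hecke
operators provide; together they give level lowering at `p`.
-/

noncomputable section

open ModularCurve AlgebraicCurve Fermat.Agent.Igusa Fermat.Agent.TwoComponent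
  WeierstrassCurve.Affine.Point

namespace Fermat.Agent.LoweringAtP.Setup

local notation "Qbar" => AlgebraicClosure ℚ

variable (p : ℕ) [Fact p.Prime] (L : ℕ) [NeZero L] (hpL : ¬ p ∣ L)
  {A : ValuationSubring (AlgebraicClosure ℚ)} {k : Type*} [Field k] [CharP k p] [IsAlgClosed k]
  {π : A →+* k} (hres : TwoComponent.ResidueAt A p π)
  (hgen : genusFF (AlgebraicClosure ℚ) (modularFunctionFieldBar L) ≤ genusFF k
    (TwoComponent.CK L k))

/-- What the model of `X₀(L p)` at `p` provides. -/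
structure ModelInputs where
  /-- the unit -/
  Ud : UnitData (TwoComponent.modelTwoRed L p hpL hres hgen)
  η_eq : (Ud.η : Qbar) = (p : Qbar)
  /-- the functions rational over the inertia field -/
  Q₀ : RatData Ud
  e_eq : Q₀.e = 1
  K₀_eq : Q₀.K₀ = PeuRamifie.inertiaField A
  mem_F₀ : ∀ u : TwoComponent.FN L p, u ∈ Q₀.F₀ ↔
    CoeffFixed (N := L * p) (A.inertiaSubgroupIn ℚ) u
  nonempty : Nonempty (TwoComponent.Node L p hpL hres hgen)
  /-- the reduced unit at infinity -/
  red_v_false : ((((TwoComponent.modelTwoRed L p hpL hres hgen).R false).red (Ud.v false) :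
    TwoComponent.CK L k) : LaurentSeries k) = HeckeCompat.unitSer k p
  ord_v_false : ∀ b : Place k (TwoComponent.CK L k),
    (TwoComponent.xbC L p : TwoComponent.CK L k) ∈ b.toValuationSubring →
    (∀ s, (TwoComponent.modelTwoRed L p hpL hres hgen).br s false ≠ b) →
    b.ord (((TwoComponent.modelTwoRed L p hpL hres hgen).R false).red (Ud.v false)) = 0
  /-- the norms to level `L` -/
  ns : ∀ (X : EisData Q₀ p) (i : Bool), NormSide X i (modularFunctionFieldBar L)
  ns_F₁ : ∀ (X : EisData Q₀ p) (i : Bool),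
    (ns X i).F₁ = fixedField L (inertiaStab A (X.ϖ : Qbar))
  /-- they are the norms along the two degeneracy maps -/
  ns_N : ∀ (X : EisData Q₀ p) (i : Bool),
    (∀ g, (ns X i).N g = Hecke.normAlong (TwoComponent.inclM L p) g) ∨
      ∀ g, (ns X i).N g =
        Hecke.normAlong ((TwoComponent.wAL L p hpL).toAlgHom.comp (TwoComponent.inclM L p)) g

variable {p L hpL hres hgen}

/-- What the Hecke operators provide for a rational torsion eigenvector of level `M p`. -/
def HeckeInputs {M : ℕ} [NeZero M] (MI : ModelInputs p L hpL hres hgen) (hML : M ∣ L)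
    (R : Prop) (f₀ : TwoComponent.FN M p) (X : EisData MI.Q₀ p) : Prop :=
  (SlopesCongr (TwoComponent.modelTwoRed L p hpL hres hgen) p (levelMap p hML f₀) →
      SlopesZero (TwoComponent.modelTwoRed L p hpL hres hgen) p (levelMap p hML f₀)) ∧
    ((∀ i P, (p : ℤ) ∣ redOrd ((TwoComponent.modelTwoRed L p hpL hres hgen).R i)
      (levelMap p hML f₀) P) →
      R ∨ RedPowers (TwoComponent.modelTwoRed L p hpL hres hgen) p (levelMap p hML f₀)) ∧
    (R ∨ ∀ i, ∃ b : Qbar, ∃ h ∈ (MI.ns X i).F₁,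
      (MI.ns X i).N (levelMap p hML f₀) =
        algebraMap Qbar (modularFunctionFieldBar L) b * h ^ p)

/-- **The level argument**, given that the torsion class survives at level `L p`. -/
theorem levelArgument {M : ℕ} [NeZero M] (hML : M ∣ L) (hp2 : p ≠ 2)
    (MI : ModelInputs p L hpL hres hgen)
    {D : Divisor.degZero (K := Qbar) (F := TwoComponent.FN M p)} (hD : Pic0.mk D ≠ 0)
    {f₀ : TwoComponent.FN M p} (hf₀ : f₀ ≠ 0)
    (hdiv : ∀ Q : Place Qbar (TwoComponent.FN M p),
      Q.ord f₀ = (p : ℤ) * (D : Divisor Qbar (TwoComponent.FN M p)) Q)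
    {t : A} {a : Fin p → A} (ha : ∀ j, (a j : Qbar) ∈ PeuRamifie.inertiaField A)
    (ha0 : A.valuation (a ⟨0, (Fact.out : p.Prime).pos⟩ : Qbar) = 1)
    (he : (t : Qbar) ^ p = (p : Qbar) * ∑ j, (a j : Qbar) * (t : Qbar) ^ (j : ℕ))
    (hfix : CoeffFixed (N := M * p) (A.inertiaSubgroupIn ℚ) f₀ ∨
      (A.valuation (a ⟨1, (Fact.out : p.Prime).one_lt⟩ : Qbar) = 1 ∧
        CoeffFixed (N := M * p) (inertiaStab A (t : Qbar)) f₀))
    (hinj : Divisor.pullbackAlong (levelMap p hML) (integral_along _)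
        (D : Divisor Qbar (TwoComponent.FN M p)) ∈ Divisor.principal (K := Qbar)
          (F := TwoComponent.FN L p) →
      (D : Divisor Qbar (TwoComponent.FN M p)) ∈ Divisor.principal (K := Qbar)
        (F := TwoComponent.FN M p))
    {R : Prop}
    (hG : ∀ X : EisData MI.Q₀ p, CoeffFixed (N := M * p) (inertiaStab A (X.ϖ : Qbar)) f₀ →
      (∀ i (P : Place k (TwoComponent.CK L k)),
        (∀ s, (TwoComponent.modelTwoRed L p hpL hres hgen).br s i ≠ P) →
          (p : ℤ) ∣ redOrd ((TwoComponent.modelTwoRed L p hpL hres hgen).R i)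
            (levelMap p hML f₀) P) →
      HeckeInputs MI hML R f₀ X) : R := by
  have hp : p.Prime := Fact.out
  have := MI.nonempty
  have hres0 : ∀ {x : A}, A.valuation (x : Qbar) = 1 → π x ≠ 0 := fun {x} hx =>
    Model.pi_ne_zero_of_val_eq_one hx
  let X : EisData MI.Q₀ p :=
    { two_le := hp.two_le
      e_eq := MI.e_eq
      η_mem := by rw [MI.η_eq, MI.K₀_eq]; exact natCast_mem _ p
      ϖ := t
      a := a
      a_mem := fun j => by rw [MI.K₀_eq]; exact ha j
      π_a := hres0 ha0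
      eis := by rw [MI.η_eq]; exact he }
  have hst : CoeffFixed (N := M * p) (inertiaStab A (X.ϖ : Qbar)) f₀ := by
    rcases hfix with h | ⟨-, h⟩
    · exact fun σ hσ n => h σ hσ.1 n
    · exact h
  have hfix' : CoeffFixed (N := M * p) (A.inertiaSubgroupIn ℚ) f₀ ∨
      (X.E ≠ 0 ∧ CoeffFixed (N := M * p) (inertiaStab A (X.ϖ : Qbar)) f₀) :=
    hfix.imp_right fun ⟨h1, h2⟩ => ⟨div_ne_zero (hres0 h1) (hres0 ha0), h2⟩
  have hF₀ : ∀ u : TwoComponent.FN L p, CoeffFixed (N := L * p) (A.inertiaSubgroupIn ℚ) u →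
      u ∈ MI.Q₀.F₀ := fun u hu => (MI.mem_F₀ u).mpr hu
  have hpz : (p : ℤ) ≠ 0 := Int.natCast_ne_zero.mpr hp.ne_zero
  have hdiv' := ord_pullback (levelMap p hML) hdiv
  have hoff := (X.ratData.redOrd_dvd hp.pos
    (spans_field_of_fixed X hF₀ (Model.coeffFixed_x _) hpz (coeffFixed_levelMap hML hst) hdiv')
    (degree_pullback (levelMap p hML) D.2)
    (mem_field_of_fixed X hF₀ (coeffFixed_levelMap hML hst)) ((map_ne_zero _).mpr hf₀) hdiv').1
  obtain ⟨hlam, hred, hnorm⟩ := hG X hst hoff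
  refine (principal_or hML hp2 MI.η_eq MI.mem_F₀ X D.2 hf₀ hdiv hfix'
    (MI.ns X) hlam hred hnorm).resolve_right fun hprin => hD ?_
  exact (QuotientAddGroup.eq_zero_iff _).mpr (AddSubgroup.mem_addSubgroupOf.mpr (hinj hprin))

end Fermat.Agent.LoweringAtP.Setup
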