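import Fermat.Agent.Hecke.Along
import Fermat.Agent.Hecke.Curves

/-!
# Pullback of torsion data

Pullback of torsion data along a map of curves; it is injective on classes killed by a number prime
to the degree.
-/

noncomputable section

open AlgebraicCurve

namespace Fermat.Agent.LoweringAtP.Setup

variable {K : Type*} [Field K] [IsAlgClosed K] {F F' : Type*} [Field F] [Field F'] [Algebra K F]
  [Algebra K F'] [FF.IsFunctionField K F] [FF.IsFunctionField K F'] (φ : F →ₐ[K] F')

omit [IsAlgClosed K] in
/-- The canonical integrality proof along `φ`. -/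
theorem integral_along : φ.toRingHom.IsIntegral := Hecke.isIntegralAlong φ

/-- Push after pull is multiplication by the degree. -/
theorem pushforward_pullback (D : Divisor K F) :
    Divisor.pushforwardAlong φ (integral_along φ)
      (Divisor.pullbackAlong φ (integral_along φ) D) = (finrankAlong K φ : ℤ) • D := by
  refine DFunLike.congr_fun (Hecke.divisor_hom_ext
    (f := (Divisor.pushforwardAlong φ (integral_along φ)).comp
      (Divisor.pullbackAlong φ (integral_along φ)))
    (g := (finrankAlong K φ : ℤ) • AddMonoidHom.id (Divisor K F)) fun v n => ?_) D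
  rw [AddMonoidHom.comp_apply, Divisor.pullbackAlong_single, map_sum,
    Finset.sum_congr rfl fun w hw => by
      rw [Hecke.pushforwardAlong_single_one _ _ w (FF.place_deg_eq_one w),
        Place.mem_fiberAlong.mp hw],
    ← Finsupp.single_finsetSum, ← Finset.mul_sum]
  let := algebraAlong φ
  have := isScalarTower_along φ
  have := isIntegral_along φ (integral_along φ)
  have h : FundamentalIdentity K F F' :=
    Hecke.fundamentalIdentityAlong φ (integral_along φ)
  have hs := h.sum_ramificationIndex_mul_deg v
  simp only [FF.place_deg_eq_one, Nat.cast_one, mul_one] at hs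
  show Finsupp.single v (n * ∑ w ∈ v.fiber F', (w.ramificationIndex F : ℤ)) = _
  rw [hs, AddMonoidHom.smul_apply, AddMonoidHom.id_apply, Finsupp.smul_single, smul_eq_mul,
    mul_comm]
  rfl

/-- The orders of the pullback of a function. -/
theorem ord_pullback {m : ℤ} {D : Divisor K F} {f : F} (hdiv : ∀ P : Place K F, P.ord f = m * D P)
    (w : Place K F') :
    w.ord (φ f) = m * Divisor.pullbackAlong φ (integral_along φ) D w := by
  rw [Place.ord_restrictAlong φ (integral_along φ), hdiv, Divisor.pullbackAlong_apply]
  ring

/-- Pullback preserves degree zero. -/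
theorem degree_pullback {D : Divisor K F} (hdeg : Divisor.degree D = 0) :
    Divisor.degree (Divisor.pullbackAlong φ (integral_along φ) D) = 0 := by
  rw [Divisor.degree_pullbackAlong φ (integral_along φ)
    (Hecke.fundamentalIdentityAlong φ (integral_along φ)), hdeg, mul_zero]

/-- Pullback is injective on classes killed by a number prime to the degree. -/
theorem mem_principal_of_pullback {m : ℕ} (hc : Nat.Coprime (finrankAlong K φ) m)
    {D : Divisor K F} {f : F} (hf : f ≠ 0) (hdiv : ∀ P : Place K F, P.ord f = (m : ℤ) * D P)
    (h : Divisor.pullbackAlong φ (integral_along φ) D ∈ Divisor.principal (K := K) (F := F')) :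
    D ∈ Divisor.principal (K := K) (F := F) := by
  have h1 : (finrankAlong K φ : ℤ) • D ∈ Divisor.principal (K := K) (F := F) := by
    rw [← pushforward_pullback φ D]
    exact Divisor.isPrincipal_pushforwardAlong φ (integral_along φ) (Hecke.finiteAlong φ)
      (Hecke.normFormulaAlong φ _) h
  have h2 : (m : ℤ) • D ∈ Divisor.principal (K := K) (F := F) :=
    ⟨f, hf, fun P => by rw [Finsupp.smul_apply, smul_eq_mul, hdiv]⟩
  obtain ⟨a, b, hab⟩ := Nat.Coprime.isCoprime hc
  rw [show D = a • ((finrankAlong K φ : ℤ) • D) + b • ((m : ℤ) • D) by
    rw [smul_smul, smul_smul, ← add_smul, hab, one_smul]]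
  exact add_mem (zsmul_mem h1 a) (zsmul_mem h2 b)

end Fermat.Agent.LoweringAtP.Setup
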